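/-
MAZUR / node [MZ-A], a piece of [A-ASM] (helper29): THE LATTICE COMPUTATION.  For a lattice `L`, a point
`z` of exact order `p` modulo `L`, the quantity
`p¹² (∏_{k=1}^{p-1} ℘'[L](k z))⁴ / Δ(L)^(p-1)` equals `Δ(τ')/Δ(p τ')` and `j(L) = kleinJ τ'` for a suitable
`τ' ∈ ℍ` — given the product formula (T3) as a hypothesis (closed in `MZ/A/Theta`).

* `mza_lu_dP_eq` : `℘'[L] (k z) = (c³)⁻¹ ℘'[L_τ'] (k/p)` when `L = c • L_τ'`, `z ≡ c/p mod L`;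
* `mza_lu_main` : the statement above.
Prefix `mza_lu_`.
-/
import Mathlib
import Fermat.Agent.MZ.A.Defs
import Fermat.Agent.MZ.A.Lat.Tau
import Fermat.Agent.MZ.A.Lat.Homog
import Fermat.Agent.MZ.A.Lat.Basis

set_option autoImplicit false

noncomputable section

open UpperHalfPlane Complex Finset
open scoped Real PeriodPair

namespace Fermat.Agent.MZ

/-- the value of `℘'[L]` at the multiples of a point `z ≡ c/p`, `L = c • L_τ'` -/
theorem mza_lu_dP_eq (L : PeriodPair) (τ' : ℍ) (c : ℂ) (hc : c ≠ 0)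
    (hsc : mza_la_IsScale c (mza_Ltau τ') L) (p : ℕ) (hp : (p : ℂ) ≠ 0) (z : ℂ)
    (hz : z - c / p ∈ L.lattice) (k : ℕ) :
    ℘'[L] ((k : ℂ) * z) = (c ^ 3)⁻¹ * ℘'[mza_Ltau τ'] ((k : ℂ) / p) := by
  have hmem : (k : ℂ) * (z - c / p) ∈ L.lattice := by
    have := L.lattice.smul_mem (k : ℤ) hz
    simpa [zsmul_eq_mul] using this
  have h1 : (k : ℂ) * z = c * ((k : ℂ) / p) + ((⟨_, hmem⟩ : L.lattice) : ℂ) := by
    show (k : ℂ) * z = c * ((k : ℂ) / p) + (k : ℂ) * (z - c / p)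
    field_simp
    ring
  rw [h1, PeriodPair.derivWeierstrassP_add_coe, mza_la_dP_scale hc hsc]

/-- **the lattice computation** -/
theorem mza_lu_main (p : ℕ) [NeZero p] (hp : p.Prime) (L : PeriodPair) (z : ℂ)
    (hz : z ∉ L.lattice) (hpz : (p : ℂ) * z ∈ L.lattice)
    (hT3 : ∀ τ : ℍ, (∏ k ∈ Ico 1 p, ℘'[mza_Ltau τ] ((k : ℂ) / p)) ^ 4 * (p : ℂ) ^ 12 *
        ModularForm.discriminant (mza_mulH p τ) =
      (2 * π) ^ (12 * (p - 1)) * ModularForm.discriminant τ ^ p) :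
    ∃ τ' : ℍ,
      (p : ℂ) ^ 12 * (∏ k ∈ Ico 1 p, ℘'[L] ((k : ℂ) * z)) ^ 4 /
          (L.g₂ ^ 3 - 27 * L.g₃ ^ 2) ^ (p - 1) = mza_Uan p τ' ∧
      1728 * L.g₂ ^ 3 / (L.g₂ ^ 3 - 27 * L.g₃ ^ 2) = Fermat.Agent.S24.kleinJ τ' := by
  have hp0 : (p : ℂ) ≠ 0 := by exact_mod_cast hp.ne_zero
  obtain ⟨τ', c, hc, hsc, hzc⟩ := mza_la_basis L p hp z hz hpz
  refine ⟨τ', ?_, ?_⟩
  · -- the unit
    have hprod : (∏ k ∈ Ico 1 p, ℘'[L] ((k : ℂ) * z))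
        = ((c ^ 3)⁻¹) ^ (p - 1) * ∏ k ∈ Ico 1 p, ℘'[mza_Ltau τ'] ((k : ℂ) / p) := by
      rw [show ((c ^ 3)⁻¹) ^ (p - 1) = ∏ _k ∈ Ico 1 p, (c ^ 3)⁻¹ by
        rw [Finset.prod_const, Nat.card_Ico], ← Finset.prod_mul_distrib]
      exact Finset.prod_congr rfl fun k _ => mza_lu_dP_eq L τ' c hc hsc p hp0 z hzc k
    have hdisc : L.g₂ ^ 3 - 27 * L.g₃ ^ 2
        = (c ^ 12)⁻¹ * ((2 * (π : ℂ)) ^ 12 * ModularForm.discriminant τ') := by
      rw [mza_la_disc_scale hc hsc, mza_la_disc]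
    have hΔ : ModularForm.discriminant τ' ≠ 0 := ModularForm.discriminant_ne_zero τ'
    have hΔp : ModularForm.discriminant (mza_mulH p τ') ≠ 0 :=
      ModularForm.discriminant_ne_zero _
    have hπ : (2 * (π : ℂ)) ≠ 0 := mul_ne_zero two_ne_zero (by exact_mod_cast Real.pi_ne_zero)
    have h3 := hT3 τ'
    set P : ℂ := ∏ k ∈ Ico 1 p, ℘'[mza_Ltau τ'] ((k : ℂ) / p) with hP
    rw [hprod, hdisc]
    unfold mza_Uan
    have hd : c⁻¹ ≠ 0 := inv_ne_zero hc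
    rw [← inv_pow, ← inv_pow]
    set d : ℂ := c⁻¹ with hdd
    set t : ℂ := 2 * (π : ℂ) with ht
    have e1 : ((d ^ 3) ^ (p - 1) * P) ^ 4 = (d ^ (p - 1)) ^ 12 * P ^ 4 := by ring
    have e2 : (d ^ 12 * (t ^ 12 * ModularForm.discriminant τ')) ^ (p - 1)
        = (d ^ (p - 1)) ^ 12 * (t ^ (12 * (p - 1)) *
          ModularForm.discriminant τ' ^ (p - 1)) := by ring_nf
    rw [e1, e2]
    have hD : (d ^ (p - 1)) ^ 12 ≠ 0 := pow_ne_zero _ (pow_ne_zero _ hd)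
    have h2π : t ^ (12 * (p - 1)) ≠ 0 := pow_ne_zero _ hπ
    have hΔpow : ModularForm.discriminant τ' ^ (p - 1) ≠ 0 := pow_ne_zero _ hΔ
    have hpp : ModularForm.discriminant τ' ^ p
        = ModularForm.discriminant τ' ^ (p - 1) * ModularForm.discriminant τ' := by
      rw [← pow_succ, Nat.sub_add_cancel hp.one_le]
    rw [hpp] at h3
    rw [div_eq_div_iff (mul_ne_zero hD (mul_ne_zero h2π hΔpow)) hΔp]
    linear_combination ((d ^ (p - 1)) ^ 12) * h3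
  · -- the `j`-invariant
    have hd := mza_la_disc_scale hc hsc
    rw [hd, mza_la_g₂_scale hc hsc, ← mza_la_kleinJ τ']
    have hne := mza_la_disc_ne_zero τ'
    have hc12 : c ^ 12 ≠ 0 := pow_ne_zero _ hc
    field_simp

end Fermat.Agent.MZ
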