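/-
MAZUR / node [MZ-A], a piece of [A-ASM] (helper29): the value `U0` of the modular unit at `(E, ⟨Q⟩)` is
invariant under admissible changes of variables and commutes with base change.

GENERIC over a field `F`, `W : WeierstrassCurve.Affine F`:
* `mza_vc_psi2 W : W.Point → F`  (`0` at the origin, `2y + a₁x + a₃` at `(x, y)`);
* `mza_vc_U W p Q = p¹² (∏_{k=1}^{p-1} ψ₂(k • Q))⁴ / Δ^(p-1)`.
THEOREMS:
* `mza_vc_psi2_map` : `ψ₂(φ P) = (u⁻¹)³ ψ₂(P)` for `φ = lrvc_map C W` (change of variables `C`);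
* `mza_vc_map_nsmul` : `φ (k • P) = k • φ P`;
* `mza_vc_U_map` : `U (C • W) p (φ Q) = U W p Q` (`Δ ≠ 0`);
* `mza_vc_psi2_baseChange`, `mza_vc_U_baseChange` : compatibility with `Affine.Point.map f`;
* `mza_vc_addOrderOf_map`, `mza_vc_addOrderOf_baseChange` : orders are preserved;
* bridge to `MZ/B/EllDefs.lean`: `mza_vc_psi2_el`, `mza_vc_U_el`, `mza_vc_j_el`.
Prefix `mza_vc_`.
-/
import Mathlib
import Fermat.Agent.LR.NonEis.VarChange
import Fermat.Agent.MZ.B.EllDefs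

set_option autoImplicit false
set_option linter.unusedSectionVars false

noncomputable section

namespace Fermat.Agent.MZ

open WeierstrassCurve WeierstrassCurve.Affine WeierstrassCurve.Affine.Point
open Fermat.Agent.LR

section generic

variable {F : Type*} [Field F] [DecidableEq F]

/-- `ψ₂ = 2y + a₁x + a₃` at an affine point, `0` at the origin -/
def mza_vc_psi2 (W : Affine F) : W.Point → F
  | .zero => 0
  | .some x y _ => 2 * y + W.a₁ * x + W.a₃

@[simp] theorem mza_vc_psi2_zero (W : Affine F) : mza_vc_psi2 W (0 : W.Point) = 0 := rfl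

theorem mza_vc_psi2_some (W : Affine F) {x y : F} (h : W.Nonsingular x y) :
    mza_vc_psi2 W (Point.some x y h) = 2 * y + W.a₁ * x + W.a₃ := rfl

/-- the value of the modular unit at `(W, ⟨Q⟩)` -/
def mza_vc_U (W : Affine F) (p : ℕ) (Q : W.Point) : F :=
  (p : F) ^ 12 * (∏ k ∈ Finset.Ico 1 p, mza_vc_psi2 W (k • Q)) ^ 4 / W.Δ ^ (p - 1)

variable (C : VariableChange F) (W : Affine F)

theorem mza_vc_psi2_map {W' : Affine F} (hW : C • W = W') (hΔ : W.Δ ≠ 0) (P : W.Point) :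
    mza_vc_psi2 W' (lrvc_map C W hW hΔ P) = (↑C.u⁻¹ : F) ^ 3 * mza_vc_psi2 W P := by
  subst hW
  rcases P with _ | ⟨x, y, h⟩
  · show mza_vc_psi2 (C • W) (lrvc_map C W rfl hΔ 0) = _
    rw [lrvc_map_zero]
    show (0 : F) = (↑C.u⁻¹ : F) ^ 3 * 0
    rw [mul_zero]
  · rw [lrvc_map_some, mza_vc_psi2_some, mza_vc_psi2_some, lrvc_X, lrvc_Y, variableChange_a₁,
      variableChange_a₃]
    ring

/-- the change of variables as an additive homomorphism -/
def mza_vc_hom {W' : Affine F} (hW : C • W = W') (hΔ : W.Δ ≠ 0) : W.Point →+ W'.Point where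
  toFun := lrvc_map C W hW hΔ
  map_zero' := lrvc_map_zero C W hW hΔ
  map_add' := lrvc_map_add C W hW hΔ

@[simp] theorem mza_vc_hom_apply {W' : Affine F} (hW : C • W = W') (hΔ : W.Δ ≠ 0) (P : W.Point) :
    mza_vc_hom C W hW hΔ P = lrvc_map C W hW hΔ P := rfl

theorem mza_vc_map_nsmul {W' : Affine F} (hW : C • W = W') (hΔ : W.Δ ≠ 0) (k : ℕ) (P : W.Point) :
    lrvc_map C W hW hΔ (k • P) = k • lrvc_map C W hW hΔ P :=
  map_nsmul (mza_vc_hom C W hW hΔ) k P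

theorem mza_vc_addOrderOf_map {W' : Affine F} (hW : C • W = W') (hΔ : W.Δ ≠ 0) (P : W.Point) :
    addOrderOf (lrvc_map C W hW hΔ P) = addOrderOf P :=
  addOrderOf_injective (mza_vc_hom C W hW hΔ) (lrvc_map_injective C W hW hΔ) P

/-- **invariance of `U0` under a change of variables** -/
theorem mza_vc_U_map {W' : Affine F} (hW : C • W = W') (hΔ : W.Δ ≠ 0) (p : ℕ) (Q : W.Point) :
    mza_vc_U W' p (lrvc_map C W hW hΔ Q) = mza_vc_U W p Q := by
  have hv : (↑C.u⁻¹ : F) ≠ 0 := lrvc_v_ne_zero C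
  have hΔ' : W'.Δ = (↑C.u⁻¹ : F) ^ 12 * W.Δ := by
    rw [← hW]; exact variableChange_Δ W C
  unfold mza_vc_U
  have hprod : (∏ k ∈ Finset.Ico 1 p, mza_vc_psi2 W' (k • lrvc_map C W hW hΔ Q))
      = ((↑C.u⁻¹ : F) ^ 3) ^ (p - 1) * ∏ k ∈ Finset.Ico 1 p, mza_vc_psi2 W (k • Q) := by
    rw [show ((↑C.u⁻¹ : F) ^ 3) ^ (p - 1) = ∏ _k ∈ Finset.Ico 1 p, (↑C.u⁻¹ : F) ^ 3 by
      rw [Finset.prod_const, Nat.card_Ico], ← Finset.prod_mul_distrib]
    refine Finset.prod_congr rfl fun k _ => ?_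
    rw [← mza_vc_map_nsmul, mza_vc_psi2_map]
  rw [hprod, hΔ', mul_pow, mul_pow]
  have h1 : (((↑C.u⁻¹ : F) ^ 3) ^ (p - 1)) ^ 4 = ((↑C.u⁻¹ : F) ^ 12) ^ (p - 1) := by
    rw [← pow_mul, ← pow_mul, ← pow_mul]
    congr 1
    ring
  rw [h1]
  have h2 : ((↑C.u⁻¹ : F) ^ 12) ^ (p - 1) ≠ 0 := pow_ne_zero _ (pow_ne_zero _ hv)
  have h3 : W.Δ ^ (p - 1) ≠ 0 := pow_ne_zero _ hΔ
  field_simp

end generic

section baseChange

variable {R : Type*} [CommRing R] (W' : WeierstrassCurve R)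
  {F : Type*} [Field F] [DecidableEq F] {K : Type*} [Field K] [DecidableEq K]
  [Algebra R F] [Algebra R K]

theorem mza_vc_psi2_baseChange (f : F →ₐ[R] K) (P : (W'⁄F).Point) :
    mza_vc_psi2 (W'⁄K) (Point.map f P) = f (mza_vc_psi2 (W'⁄F) P) := by
  rcases P with _ | ⟨x, y, h⟩
  · show mza_vc_psi2 (W'⁄K) (Point.map f 0) = f (mza_vc_psi2 (W'⁄F) 0)
    rw [Point.map_zero, mza_vc_psi2_zero, mza_vc_psi2_zero, _root_.map_zero]
  · rw [Point.map_some, mza_vc_psi2_some, mza_vc_psi2_some]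
    simp only [map_add, map_mul, map_ofNat]
    congr 2
    · simp [WeierstrassCurve.baseChange, AlgHom.commutes]
    · simp [WeierstrassCurve.baseChange, AlgHom.commutes]

theorem mza_vc_Δ_baseChange (f : F →ₐ[R] K) : (W'⁄K).Δ = f ((W'⁄F).Δ) := by
  simp only [WeierstrassCurve.baseChange, WeierstrassCurve.map_Δ]
  exact (f.commutes _).symm

theorem mza_vc_U_baseChange (f : F →ₐ[R] K) (p : ℕ) (Q : (W'⁄F).Point) :
    mza_vc_U (W'⁄K) p (Point.map f Q) = f (mza_vc_U (W'⁄F) p Q) := by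
  unfold mza_vc_U
  rw [map_div₀, map_mul, map_pow, map_pow, map_pow, map_natCast, map_prod, mza_vc_Δ_baseChange W' f]
  congr 3
  refine Finset.prod_congr rfl fun k _ => ?_
  rw [← mza_vc_psi2_baseChange, map_nsmul]

theorem mza_vc_addOrderOf_baseChange (f : F →ₐ[R] K) (Q : (W'⁄F).Point) :
    addOrderOf (Point.map f Q) = addOrderOf Q :=
  addOrderOf_injective (Point.map (W' := W') f) (Point.map_injective f) Q

end baseChange

section bridge

variable (W : WeierstrassCurve ℤ)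

/-- helper16's `ψ₂` is the generic one -/
theorem mza_vc_psi2_el (P : mzb_el_E W) :
    mzb_el_psi2 W P
      = mza_vc_psi2 ((W.map (Int.castRingHom ℚ))⁄(AlgebraicClosure ℚ)) P := by
  rcases P with _ | ⟨x, y, h⟩
  · rfl
  · rw [mzb_el_psi2_some, mza_vc_psi2_some, mzb_el_a₁, mzb_el_a₃]

theorem mza_vc_Δ_el :
    ((W.map (Int.castRingHom ℚ))⁄(AlgebraicClosure ℚ)).Δ = ((W.Δ : ℤ) : AlgebraicClosure ℚ) := by
  simp [WeierstrassCurve.baseChange, WeierstrassCurve.map_Δ]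

theorem mza_vc_c₄_el :
    ((W.map (Int.castRingHom ℚ))⁄(AlgebraicClosure ℚ)).c₄ = ((W.c₄ : ℤ) : AlgebraicClosure ℚ) := by
  simp [WeierstrassCurve.baseChange, WeierstrassCurve.map_c₄]

/-- helper16's `U0` is the generic one -/
theorem mza_vc_U_el (p : ℕ) (Q : mzb_el_E W) :
    mzb_el_U0 W p Q
      = mza_vc_U ((W.map (Int.castRingHom ℚ))⁄(AlgebraicClosure ℚ)) p Q := by
  unfold mzb_el_U0 mza_vc_U
  rw [mza_vc_Δ_el]
  congr 3
  refine Finset.prod_congr rfl fun k _ => ?_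
  rw [mza_vc_psi2_el]

/-- helper16's `j0` is `c₄³/Δ` of the base change -/
theorem mza_vc_j_el :
    mzb_el_j0 W = ((W.map (Int.castRingHom ℚ))⁄(AlgebraicClosure ℚ)).c₄ ^ 3 /
      ((W.map (Int.castRingHom ℚ))⁄(AlgebraicClosure ℚ)).Δ := by
  rw [mza_vc_Δ_el, mza_vc_c₄_el]
  rfl

end bridge

end Fermat.Agent.MZ
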