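/-
MAZUR / node [MZ-A], a piece of [A-ASM] (helper29): FROM A POINT OF ORDER `p` ON `Y² = X³ - g₂/4 X - g₃/4`
TO A POINT `τ'` OF THE UPPER HALF PLANE.

* `mza_uu_psi2_Phi` : `ψ₂(Φ w) = ℘'[L] w` for ALL `w` (both sides vanish on the lattice);
* `mza_uu_j` : `c₄³/Δ` of `mza_uh_curve L` is `1728 g₂³ / (g₂³ - 27 g₃²)`;
* `mza_uu_main` : `L` a period pair with the addition theorem `mza_uh_AddHyp L`, `Q` a point of exact
  order `p` (odd prime) of `mza_uh_curve L` ⟹ `∃ τ' : ℍ`,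
  `mza_vc_U (mza_uh_curve L) p Q = mza_Uan p τ' = Δ(τ')/Δ(pτ')` and `j(mza_uh_curve L) = kleinJ τ'`.
Prefix `mza_uu_`.
-/
import Mathlib
import Fermat.Agent.MZ.A.Unif.PhiHom
import Fermat.Agent.MZ.A.Asm.VarChange
import Fermat.Agent.MZ.A.Asm.LatU
import Fermat.Agent.MZ.A.Theta.Main

set_option autoImplicit false

noncomputable section

open UpperHalfPlane Complex Finset
open scoped Real PeriodPair

namespace Fermat.Agent.MZ

variable (L : PeriodPair)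

/-- `ψ₂ (Φ w) = ℘' w` for every `w` -/
theorem mza_uu_psi2_Phi (w : ℂ) :
    mza_vc_psi2 (mza_uh_curve L).toAffine (mza_uh_Phi L w) = ℘'[L] w := by
  by_cases hw : w ∈ L.lattice
  · rw [mza_uh_Phi_of_mem L hw, mza_vc_psi2_zero]
    exact (L.derivWeierstrassP_coe ⟨w, hw⟩).symm
  · rw [mza_uh_Phi_of_notMem L hw, mza_vc_psi2_some]
    simp only [mza_uh_curve]
    ring

/-- the `j`-invariant of `mza_uh_curve L` -/
theorem mza_uu_j :
    (mza_uh_curve L).c₄ ^ 3 / (mza_uh_curve L).Δ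
      = 1728 * L.g₂ ^ 3 / (L.g₂ ^ 3 - 27 * L.g₃ ^ 2) := by
  rw [mza_uh_curve_Δ]
  congr 1
  simp only [mza_uh_curve, WeierstrassCurve.c₄, WeierstrassCurve.b₂, WeierstrassCurve.b₄]
  ring

/-- **from a point of order `p` to `τ'`** -/
theorem mza_uu_main (p : ℕ) [NeZero p] (hp : p.Prime) (hp2 : p ≠ 2) (hA : mza_uh_AddHyp L)
    (Q : (mza_uh_curve L).toAffine.Point) (hQ : addOrderOf Q = p) :
    ∃ τ' : ℍ, mza_vc_U (mza_uh_curve L).toAffine p Q = mza_Uan p τ' ∧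
      (mza_uh_curve L).c₄ ^ 3 / (mza_uh_curve L).Δ = Fermat.Agent.S24.kleinJ τ' := by
  obtain ⟨z, rfl⟩ := mza_uh_Phi_surjective L Q
  have hz : z ∉ L.lattice := by
    intro h
    rw [mza_uh_Phi_of_mem L h, addOrderOf_zero] at hQ
    exact hp.one_lt.ne hQ
  have hpz : (p : ℂ) * z ∈ L.lattice := by
    rw [← mza_uh_Phi_eq_zero_iff, mza_uh_Phi_nsmul L hA, ← hQ]
    exact addOrderOf_nsmul_eq_zero _
  obtain ⟨τ', h1, h2⟩ := mza_lu_main p hp L z hz hpz (fun τ => mza_th_main τ p hp hp2)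
  refine ⟨τ', ?_, ?_⟩
  · rw [← h1]
    unfold mza_vc_U
    rw [mza_uh_curve_Δ]
    congr 3
    refine Finset.prod_congr rfl fun k _ => ?_
    rw [← mza_uh_Phi_nsmul L hA, mza_uu_psi2_Phi]
  · rw [mza_uu_j, h2]

end Fermat.Agent.MZ
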