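/-
MAZUR / node [MZ-A], the analytic glue of [A-ASM] (helper29): FROM THE S15 VOCABULARY TO A POINT OF `ℍ`.

`mza_rd_main` : `W : WeierstrassCurve ℤ`, `Δ ≠ 0`, `Q` a point of `W` over `ℚ̄` of exact order `p`
(odd prime) ⟹ `∃ τ' : ℍ`, `ι (j0 W) = kleinJ τ'` and `ι (U0 W p Q) = Δ(τ')/Δ(pτ')`, where
`ι = br_iota : ℚ̄ → ℂ` (S24), `j0 = mzb_el_j0`, `U0 = mzb_el_U0` (MZ/B/EllDefs.lean).

Route: base change along `ι` (`Asm/VarChange.lean`), `kleinJ` surjective (S24 `jl_exists_kleinJ_eq`),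
Mathlib's `exists_variableChange_of_j_eq` to `mza_uh_curve (mza_Ltau τ)`, invariance of `U0` under the
change of variables, `mza_uu_main` (`Asm/UnifU.lean`) with the addition theorem `mza_u_addHyp`.
Prefix `mza_rd_`.
-/
import Mathlib
import Fermat.Agent.MZ.A.Asm.UnifU
import Fermat.Agent.MZ.A.Unif.Closed
import Fermat.Agent.S24.JLocal
import Fermat.Agent.S24.Bridge.Field

set_option autoImplicit false

noncomputable section

open UpperHalfPlane Complex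
open WeierstrassCurve WeierstrassCurve.Affine WeierstrassCurve.Affine.Point
open Fermat.Agent.LR
open Fermat.Agent.S24 (br_iota kleinJ jl_exists_kleinJ_eq)

namespace Fermat.Agent.MZ

theorem mza_rd_j_eq {F : Type*} [Field F] (E : WeierstrassCurve F) [E.IsElliptic] :
    E.j = E.c₄ ^ 3 / E.Δ := by
  rw [WeierstrassCurve.j, Units.val_inv_eq_inv_val, WeierstrassCurve.coe_Δ', div_eq_inv_mul]

/-- **the analytic reduction of [MZ-A]** -/
theorem mza_rd_main (W : WeierstrassCurve ℤ) (hΔ : W.Δ ≠ 0) (p : ℕ) [NeZero p] (hp : p.Prime)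
    (hp2 : p ≠ 2) (Q : mzb_el_E W) (hQ : addOrderOf Q = p) :
    ∃ τ' : ℍ, br_iota (mzb_el_j0 W) = kleinJ τ' ∧ br_iota (mzb_el_U0 W p Q) = mza_Uan p τ' := by
  -- the curve over `ℂ`
  have hΔE : ((W.map (Int.castRingHom ℚ))⁄ℂ).Δ = ((W.Δ : ℤ) : ℂ) := by
    simp [WeierstrassCurve.baseChange, WeierstrassCurve.map_Δ]
  have hc₄E : ((W.map (Int.castRingHom ℚ))⁄ℂ).c₄ = ((W.c₄ : ℤ) : ℂ) := by
    simp [WeierstrassCurve.baseChange, WeierstrassCurve.map_c₄]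
  have hΔE0 : ((W.map (Int.castRingHom ℚ))⁄ℂ).Δ ≠ 0 := by
    rw [hΔE]
    exact_mod_cast hΔ
  have hell : ((W.map (Int.castRingHom ℚ))⁄ℂ).IsElliptic := ⟨isUnit_iff_ne_zero.2 hΔE0⟩
  -- the point over `ℂ`
  have hQc : addOrderOf (Point.map (W' := W.map (Int.castRingHom ℚ)) br_iota Q) = p := by
    rw [mza_vc_addOrderOf_baseChange, hQ]
  have hU : br_iota (mzb_el_U0 W p Q)
      = mza_vc_U ((W.map (Int.castRingHom ℚ))⁄ℂ) p
          (Point.map (W' := W.map (Int.castRingHom ℚ)) br_iota Q) := by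
    rw [mza_vc_U_el, ← mza_vc_U_baseChange]
  have hj : br_iota (mzb_el_j0 W)
      = ((W.map (Int.castRingHom ℚ))⁄ℂ).c₄ ^ 3 / ((W.map (Int.castRingHom ℚ))⁄ℂ).Δ := by
    unfold mzb_el_j0
    rw [map_div₀, map_pow, map_intCast, map_intCast, hΔE, hc₄E]
  -- `τ` with the same `j`
  obtain ⟨τ, hτ⟩ := jl_exists_kleinJ_eq
    (((W.map (Int.castRingHom ℚ))⁄ℂ).c₄ ^ 3 / ((W.map (Int.castRingHom ℚ))⁄ℂ).Δ)
  have hjL : (mza_uh_curve (mza_Ltau τ)).c₄ ^ 3 / (mza_uh_curve (mza_Ltau τ)).Δ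
      = ((W.map (Int.castRingHom ℚ))⁄ℂ).c₄ ^ 3 / ((W.map (Int.castRingHom ℚ))⁄ℂ).Δ := by
    rw [mza_uu_j, mza_la_kleinJ, hτ]
  have hellL : (mza_uh_curve (mza_Ltau τ)).IsElliptic :=
    ⟨isUnit_iff_ne_zero.2 (mza_uh_curve_Δ_ne_zero (mza_Ltau τ))⟩
  have hjeq : ((W.map (Int.castRingHom ℚ))⁄ℂ).j = (mza_uh_curve (mza_Ltau τ)).j := by
    rw [mza_rd_j_eq, mza_rd_j_eq, hjL]
  obtain ⟨C, hC⟩ := WeierstrassCurve.exists_variableChange_of_j_eq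
    ((W.map (Int.castRingHom ℚ))⁄ℂ) (mza_uh_curve (mza_Ltau τ)) hjeq
  -- transport the point
  have hC' : C • ((W.map (Int.castRingHom ℚ))⁄ℂ).toAffine = (mza_uh_curve (mza_Ltau τ)).toAffine :=
    hC
  have hQ' : addOrderOf (lrvc_map C ((W.map (Int.castRingHom ℚ))⁄ℂ).toAffine hC' hΔE0
      (Point.map (W' := W.map (Int.castRingHom ℚ)) br_iota Q)) = p := by
    rw [mza_vc_addOrderOf_map, hQc]
  obtain ⟨τ', h1, h2⟩ := mza_uu_main (mza_Ltau τ) p hp hp2 (mza_u_addHyp (mza_Ltau τ)) _ hQ'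
  refine ⟨τ', ?_, ?_⟩
  · rw [hj, ← hjL, h2]
  · rw [hU, ← h1, mza_vc_U_map]

end Fermat.Agent.MZ
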