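/-
MAZUR / node [MZ-A] CLOSED (helper29; glue of helper27's `mza_pls_stmt_of_point` and `mza_rd_main`):
`mza_rd_stmt : mza_stmt` (the seam of `MZ/B/Seams.lean`): for an odd prime `p`, `W / ℤ` with `Δ ≠ 0` and a
point `Q` over `ℚ̄` of exact order `p` there is a place `x` of `ℚ̄(X₀(p))` at which `j` takes the value
`j(W)` and the modular unit `U = Δ(q)/Δ(q^p)` takes the value `U0(W, Q)`.
Prefix `mza_rd_`.
-/
import Fermat.Agent.MZ.A.Asm.Reduce
import Fermat.Agent.MZ.A.Place.Seam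

set_option autoImplicit false

namespace Fermat.Agent.MZ

/-- **[MZ-A]** -/
theorem mza_rd_stmt : mza_stmt :=
  mza_pls_stmt_of_point (fun p _ hp hp2 W hΔ Q hQ => mza_rd_main W hΔ p hp hp2 Q hQ)

end Fermat.Agent.MZ
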